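import Mathlib.RingTheory.MvPowerSeries.Inverse
import Mathlib.RingTheory.MvPowerSeries.Equiv
import Mathlib.RingTheory.Regular.RegularSequence
import Mathlib.RingTheory.DiscreteValuationRing.Basic
import Mathlib.Algebra.Module.SpanRankOperations

/-!
# The regular sequence `X₁, …, X_r, ϖ` in a power series ring

`regularParams` is weakly regular for `ϖ ≠ 0`, and over a discrete valuation ring the maximal
ideal needs at most `r + 1` generators.
-/

set_option autoImplicit false

namespace Fermat.GR

open RingTheory.Sequence

variable {𝒪 : Type*} [CommRing 𝒪] {σ : Type}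

/-- A series lies in the ideal of some variables iff its coefficients free of them vanish. -/
theorem mem_span_X_image_iff (s : Finset σ) (f : MvPowerSeries σ 𝒪) :
    f ∈ Ideal.span ((MvPowerSeries.X : σ → MvPowerSeries σ 𝒪) '' (s : Set σ)) ↔
      ∀ e : σ →₀ ℕ, (∀ j ∈ s, e j = 0) → MvPowerSeries.coeff e f = 0 := by
  classical
  induction s using Finset.induction generalizing f with
  | empty =>
    simp only [Finset.coe_empty, Set.image_empty, Ideal.span_empty, Submodule.mem_bot,
      Finset.notMem_empty, IsEmpty.forall_iff, implies_true, forall_const]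
    exact ⟨fun h e => by simp [h], fun h => MvPowerSeries.ext fun e => by simp [h e]⟩
  | insert a s ha ih =>
    rw [Finset.coe_insert, Set.image_insert_eq, Ideal.mem_span_insert]
    constructor
    · rintro ⟨g, z, hz, rfl⟩ e he
      rw [map_add, (ih z).mp hz e (fun j hj => he j (Finset.mem_insert_of_mem hj)), add_zero]
      exact MvPowerSeries.X_dvd_iff.mp ⟨g, mul_comm _ _⟩ e (he a (Finset.mem_insert_self a s))
    · intro h
      let z : MvPowerSeries σ 𝒪 := fun e => if e a = 0 then MvPowerSeries.coeff e f else 0
      have hz : ∀ e, MvPowerSeries.coeff e z = if e a = 0 then MvPowerSeries.coeff e f else 0 :=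
        fun e => rfl
      obtain ⟨g, hg⟩ : (MvPowerSeries.X a : MvPowerSeries σ 𝒪) ∣ f - z :=
        MvPowerSeries.X_dvd_iff.mpr fun e he => by rw [map_sub, hz, if_pos he, sub_self]
      refine ⟨g, z, (ih z).mpr fun e he => ?_, by rw [mul_comm, ← hg, sub_add_cancel]⟩
      rw [hz]
      split_ifs with hea
      · refine h e fun j hj => ?_
        rcases Finset.mem_insert.mp hj with rfl | hj
        · exact hea
        · exact he j hj
      · rfl

variable {r : ℕ}

/-- The list `X₀, …, X_{r-1}, ϖ`. -/
noncomputable def regularParams (r : ℕ) (ϖ : 𝒪) : List (MvPowerSeries (Fin r) 𝒪) :=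
  (List.finRange r).map MvPowerSeries.X ++ [MvPowerSeries.C ϖ]

/-- The ideal of a list of variables is spanned by their set. -/
theorem ofList_map_X (l : List (Fin r)) :
    Ideal.ofList (l.map (MvPowerSeries.X : Fin r → MvPowerSeries (Fin r) 𝒪)) =
      Ideal.span ((MvPowerSeries.X : Fin r → MvPowerSeries (Fin r) 𝒪) ''
        (l.toFinset : Set (Fin r))) := by
  unfold Ideal.ofList
  congr 1
  ext x
  simp [eq_comm]

/-- The variables followed by a nonzero scalar form a weakly regular sequence. -/
theorem isWeaklyRegular_regularParams [IsDomain 𝒪] {ϖ : 𝒪} (hϖ : ϖ ≠ 0) :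
    IsWeaklyRegular (MvPowerSeries (Fin r) 𝒪) (regularParams r ϖ) := by
  classical
  rw [regularParams, isWeaklyRegular_append_iff]
  -- each variable is regular modulo the earlier ones, and `ϖ` modulo all of them
  constructor
  · rw [isWeaklyRegular_iff]
    intro i hi
    rw [isSMulRegular_quotient_iff_mem_of_smul_mem]
    intro x hx
    simp only [List.length_map, List.length_finRange] at hi
    rw [← List.map_take, ofList_map_X, smul_eq_mul, Ideal.mul_top] at hx ⊢
    rw [mem_span_X_image_iff] at hx ⊢
    intro e he
    simp only [List.getElem_map, List.getElem_finRange, Fin.cast_mk, smul_eq_mul] at hx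
    have hk : ∀ j ∈ ((List.finRange r).take i).toFinset, j ≠ (⟨i, hi⟩ : Fin r) := by
      intro j hj hji
      obtain ⟨k, hk, rfl⟩ := List.mem_iff_getElem.mp (List.mem_toFinset.mp hj)
      simp only [List.getElem_take, List.getElem_finRange, Fin.ext_iff, Fin.val_cast] at hji
      simp only [List.length_take, List.length_finRange] at hk
      omega
    have := hx (e + Finsupp.single (⟨i, hi⟩ : Fin r) 1) (fun j hj => by
      simp [he j hj, Finsupp.single_eq_of_ne (hk j hj)])
    rwa [MvPowerSeries.X_def, add_comm e, MvPowerSeries.coeff_add_monomial_mul, one_mul] at this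
  · rw [isWeaklyRegular_singleton_iff, isSMulRegular_quotient_iff_mem_of_smul_mem]
    intro x hx
    rw [ofList_map_X, smul_eq_mul, Ideal.mul_top, mem_span_X_image_iff] at hx ⊢
    intro e he
    have := hx e he
    rw [smul_eq_mul, MvPowerSeries.coeff_C_mul] at this
    exact (mul_eq_zero.mp this).resolve_left hϖ

/-- The members of `regularParams` lie in the maximal ideal. -/
theorem regularParams_mem_maximalIdeal [IsLocalRing 𝒪] {ϖ : 𝒪}
    (hϖ : ϖ ∈ IsLocalRing.maximalIdeal 𝒪) :
    ∀ f ∈ regularParams r ϖ, f ∈ IsLocalRing.maximalIdeal (MvPowerSeries (Fin r) 𝒪) := by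
  intro f hf
  change ¬ IsUnit f
  rw [MvPowerSeries.isUnit_iff_constantCoeff]
  rcases List.mem_append.mp hf with h | h
  · obtain ⟨i, -, rfl⟩ := List.mem_map.mp h
    simp
  · rw [List.mem_singleton.mp h, MvPowerSeries.constantCoeff_C]
    exact hϖ

/-- The maximal ideal of a power series ring over a discrete valuation ring needs at most `r + 1`
generators. -/
theorem spanFinrank_maximalIdeal_mvPowerSeries_le [IsDomain 𝒪] [IsDiscreteValuationRing 𝒪] :
    (IsLocalRing.maximalIdeal (MvPowerSeries (Fin r) 𝒪)).spanFinrank ≤ r + 1 := by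
  classical
  obtain ⟨ϖ, hϖ⟩ := IsDiscreteValuationRing.exists_irreducible 𝒪
  have hϖm : ϖ ∈ IsLocalRing.maximalIdeal 𝒪 := hϖ.not_isUnit
  -- `ϖ` and the variables generate the maximal ideal
  have heq : IsLocalRing.maximalIdeal (MvPowerSeries (Fin r) 𝒪) =
      Ideal.span ((insert (MvPowerSeries.C ϖ)
        (Finset.univ.image (MvPowerSeries.X : Fin r → MvPowerSeries (Fin r) 𝒪)) :
          Finset (MvPowerSeries (Fin r) 𝒪)) : Set (MvPowerSeries (Fin r) 𝒪)) := by
    apply le_antisymm
    · intro f hf
      have hc : ¬ IsUnit (MvPowerSeries.constantCoeff f) :=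
        fun h => hf (MvPowerSeries.isUnit_iff_constantCoeff.mpr h)
      have hc' : MvPowerSeries.constantCoeff f ∈ IsLocalRing.maximalIdeal 𝒪 := hc
      rw [hϖ.maximalIdeal_eq, Ideal.mem_span_singleton'] at hc'
      obtain ⟨c, hc'⟩ := hc'
      rw [Finset.coe_insert, Finset.coe_image, Ideal.mem_span_insert]
      refine ⟨MvPowerSeries.C c, f - MvPowerSeries.C c * MvPowerSeries.C ϖ, ?_, by ring⟩
      rw [mem_span_X_image_iff]
      intro e he
      have he0 : e = 0 := Finsupp.ext fun j => he j (Finset.mem_univ j)
      subst he0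
      simp [MvPowerSeries.coeff_zero_eq_constantCoeff, hc']
    · rw [Ideal.span_le]
      intro f hf
      refine regularParams_mem_maximalIdeal hϖm f ?_
      rcases Finset.mem_insert.mp hf with h | h
      · exact List.mem_append.mpr (Or.inr (List.mem_singleton.mpr h))
      · obtain ⟨i, -, rfl⟩ := Finset.mem_image.mp h
        exact List.mem_append.mpr (Or.inl (List.mem_map.mpr ⟨i, List.mem_finRange i, rfl⟩))
  rw [heq]
  -- so count them
  refine (Submodule.spanFinrank_span_le_ncard_of_finite (Finset.finite_toSet _)).trans ?_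
  rw [Set.ncard_coe_finset]
  exact (Finset.card_insert_le _ _).trans (by
    simpa using Finset.card_image_le (s := (Finset.univ : Finset (Fin r)))
      (f := (MvPowerSeries.X : Fin r → MvPowerSeries (Fin r) 𝒪)))

end Fermat.GR
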