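import Mathlib.RingTheory.Depth.Rees
import Mathlib.RingTheory.Regular.Free
import Mathlib.RingTheory.Ideal.AssociatedPrime.Finiteness
import Mathlib.Algebra.Module.SpanRankOperations
import Mathlib.RingTheory.LocalRing.Module

/-!
# A finite module of full depth over a regular local ring is free

If the maximal ideal of a noetherian local ring can be generated by `n` elements and `M` is a
finite module admitting a regular sequence of length `n`, then `M` is free.
-/

set_option autoImplicit false

namespace Fermat.GR

open IsLocalRing RingTheory.Sequence CategoryTheory Abelian Limits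

/-- Removing an element `y ∈ m ∖ m²` drops the number of generators of the maximal ideal. -/
theorem spanFinrank_maximalIdeal_quotient_le {R : Type} [CommRing R] [IsLocalRing R]
    [IsNoetherianRing R] {y : R} (hy : y ∈ maximalIdeal R) (hy2 : y ∉ maximalIdeal R ^ 2)
    [IsLocalRing (R ⧸ Ideal.span {y})] {n : ℕ}
    (hn : (maximalIdeal R).spanFinrank ≤ n + 1) :
    (maximalIdeal (R ⧸ Ideal.span {y})).spanFinrank ≤ n := by
  classical
  have hfg := (maximalIdeal R).fg_of_isNoetherianRing
  have hfin := Submodule.FG.finite_generators hfg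
  set s := hfin.toFinset with hs
  have hspan : Ideal.span (s : Set R) = maximalIdeal R := by
    rw [hs, Set.Finite.coe_toFinset]
    exact (maximalIdeal R).span_generators
  have hcard : s.card ≤ n + 1 := by
    rw [hs, ← Set.ncard_eq_toFinset_card _ hfin, Submodule.FG.generators_ncard hfg]
    exact hn
  have hymem : y ∈ Submodule.span R (s : Set R) := by
    change y ∈ Ideal.span (s : Set R)
    rw [hspan]; exact hy
  -- some coefficient of `y` in the generators is a unit, so that generator is redundant
  obtain ⟨c, -, hc⟩ := Submodule.mem_span_finset.mp hymem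
  obtain ⟨j, hj, hju⟩ : ∃ j ∈ s, IsUnit (c j) := by
    by_contra h
    push Not at h
    apply hy2
    rw [← hc, pow_two]
    refine Ideal.sum_mem _ fun a ha => ?_
    rw [smul_eq_mul]
    exact Ideal.mul_mem_mul (h a ha) (hspan ▸ Ideal.subset_span ha)
  have hmap : maximalIdeal (R ⧸ Ideal.span {y}) =
      Ideal.span ((s.erase j).image (Ideal.Quotient.mk (Ideal.span {y})) : Set
        (R ⧸ Ideal.span {y})) := by
    have hm : maximalIdeal (R ⧸ Ideal.span {y}) =
        (maximalIdeal R).map (Ideal.Quotient.mk (Ideal.span {y})) := by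
      refine (IsLocalRing.eq_maximalIdeal ?_).symm
      refine (Ideal.map_eq_top_or_isMaximal_of_surjective _ Ideal.Quotient.mk_surjective
        (maximalIdeal.isMaximal R)).resolve_left fun htop => ?_
      have := congrArg (Ideal.comap (Ideal.Quotient.mk (Ideal.span {y}))) htop
      rw [Ideal.comap_map_of_surjective _ Ideal.Quotient.mk_surjective, Ideal.comap_top,
        ← RingHom.ker_eq_comap_bot, Ideal.mk_ker,
        sup_eq_left.mpr ((Ideal.span_singleton_le_iff_mem _).mpr hy)] at this
      exact (maximalIdeal.isMaximal R).ne_top this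
    rw [hm, Finset.coe_image, ← Ideal.map_span]
    apply le_antisymm
    · conv_lhs => rw [← hspan]
      rw [Ideal.map_span, Ideal.span_le]
      rintro _ ⟨a, ha, rfl⟩
      by_cases haj : a = j
      · subst haj
        have hsum : c a • a + ∑ x ∈ s.erase a, c x • x = y := by
          rw [Finset.add_sum_erase s (fun x => c x • x) hj, hc]
        have h0 := congrArg (Ideal.Quotient.mk (Ideal.span {y})) hsum
        rw [smul_eq_mul, map_add, map_mul,
          (Ideal.Quotient.eq_zero_iff_mem.mpr (Ideal.mem_span_singleton_self y))] at h0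
        have hin : Ideal.Quotient.mk (Ideal.span {y}) (c a) *
            Ideal.Quotient.mk (Ideal.span {y}) a ∈
            (Ideal.span (↑(s.erase a) : Set R)).map (Ideal.Quotient.mk (Ideal.span {y})) := by
          rw [eq_neg_of_add_eq_zero_left h0]
          refine neg_mem (Ideal.mem_map_of_mem _ ?_)
          exact Ideal.sum_mem _ fun x hx => Ideal.mul_mem_left _ _ (Ideal.subset_span hx)
        exact (Ideal.unit_mul_mem_iff_mem _ (hju.map _)).mp hin
      · exact Ideal.mem_map_of_mem _ (Ideal.subset_span (Finset.mem_erase.mpr ⟨haj, ha⟩))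
    · exact Ideal.map_mono (by rw [← hspan]; exact Ideal.span_mono (Finset.erase_subset _ _))
  rw [hmap]
  refine (Submodule.spanFinrank_span_le_ncard_of_finite (Finset.finite_toSet _)).trans ?_
  rw [Set.ncard_coe_finset]
  refine Finset.card_image_le.trans ?_
  rw [Finset.card_erase_of_mem hj]
  omega

/-- If some element of the maximal ideal is regular on `M`, then so is one outside its square. -/
theorem exists_isSMulRegular_notMem_sq {R : Type} [CommRing R] [IsLocalRing R] [IsNoetherianRing R]
    {M : Type} [AddCommGroup M] [Module R M] [Module.Finite R M] [Nontrivial M] {z : R}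
    (hzm : z ∈ maximalIdeal R) (hzreg : IsSMulRegular M z) :
    ∃ y, y ∈ maximalIdeal R ∧ y ∉ maximalIdeal R ^ 2 ∧ IsSMulRegular M y := by
  classical
  have hass : ∀ p ∈ associatedPrimes R M, z ∉ p := by
    intro p hp hzp
    have : z ∈ ⋃ q ∈ associatedPrimes R M, (q : Set R) := Set.mem_iUnion₂.mpr ⟨p, hp, hzp⟩
    rw [biUnion_associatedPrimes_eq_compl_regular] at this
    exact this hzreg
  -- else prime avoidance puts the maximal ideal in its square or in an associated prime
  by_contra h
  push Not at h
  have hfinA : (associatedPrimes R M).Finite := associatedPrimes.finite R M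
  have hsub : (maximalIdeal R : Set R) ⊆
      ⋃ i ∈ (↑(insert (maximalIdeal R ^ 2) hfinA.toFinset) : Set (Ideal R)),
      (id i : Ideal R) := by
    intro y hy
    by_cases hy2 : y ∈ maximalIdeal R ^ 2
    · exact Set.mem_iUnion₂.mpr ⟨_, Finset.mem_insert_self _ _, hy2⟩
    · have : y ∈ ⋃ q ∈ associatedPrimes R M, (q : Set R) := by
        rw [biUnion_associatedPrimes_eq_compl_regular]
        exact h y hy hy2
      obtain ⟨q, hq, hyq⟩ := Set.mem_iUnion₂.mp this
      exact Set.mem_iUnion₂.mpr ⟨q, Finset.mem_insert_of_mem (hfinA.mem_toFinset.mpr hq), hyq⟩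
  obtain ⟨q, hq, hle⟩ := (Ideal.subset_union_prime (f := id) (maximalIdeal R ^ 2)
    (maximalIdeal R ^ 2) (fun q hq hne _ => by
      rcases Finset.mem_insert.mp hq with h' | h'
      · exact absurd h' hne
      · exact IsAssociatedPrime.isPrime (hfinA.mem_toFinset.mp h'))).mp hsub
  rcases Finset.mem_insert.mp hq with h' | h'
  · subst h'
    have hbot : maximalIdeal R = ⊥ :=
      Submodule.eq_bot_of_le_smul_of_le_jacobson_bot (maximalIdeal R) (maximalIdeal R)
        (maximalIdeal R).fg_of_isNoetherianRing
        (by simpa [pow_two, smul_eq_mul] using hle) (maximalIdeal_le_jacobson _)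
    rw [hbot] at hzm
    rw [Submodule.mem_bot] at hzm
    exact not_subsingleton M ((IsSMulRegular.zero_iff_subsingleton).mp (hzm ▸ hzreg))
  · exact hass q (hfinA.mem_toFinset.mp h') (hle hzm)

/-- Dividing by a regular element of the maximal ideal drops the depth by one at most. -/
theorem exists_isRegular_quotSMulTop {R : Type} [CommRing R] [IsLocalRing R] [IsNoetherianRing R]
    {M : Type} [AddCommGroup M] [Module R M] [Module.Finite R M] [Nontrivial M] {n : ℕ}
    (hex : ∃ l : List R, l.length = n + 1 ∧ (∀ r ∈ l, r ∈ maximalIdeal R) ∧ IsRegular M l)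
    {y : R} (hym : y ∈ maximalIdeal R) (hyreg : IsSMulRegular M y) :
    ∃ l : List R, l.length = n ∧ (∀ r ∈ l, r ∈ maximalIdeal R) ∧
      IsRegular (QuotSMulTop y M) l := by
  have hlt : ∀ (P : Type) [AddCommGroup P] [Module R P] [Module.Finite R P] [Nontrivial P],
      (maximalIdeal R) • (⊤ : Submodule R P) < ⊤ := fun P _ _ _ _ =>
    (Submodule.top_ne_ideal_smul_of_le_jacobson_annihilator
      (maximalIdeal_le_jacobson _)).symm.lt_top
  have : Nontrivial (QuotSMulTop y M) := nontrivial_quotSMulTop_of_mem_maximalIdeal M hym
  -- depth is read off the vanishing of `Ext`, and the long exact sequence loses one degree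
  have hext : ∀ i < n + 1, Subsingleton (Ext (ModuleCat.of R (Shrink.{0} (R ⧸ maximalIdeal R)))
      (ModuleCat.of R M) i) :=
    ((ModuleCat.exists_isRegular_tfae (maximalIdeal R) (n + 1) (ModuleCat.of R M) (hlt M)).out
      3 1).mp hex
  have hext' : ∀ i < n, Subsingleton (Ext (ModuleCat.of R (Shrink.{0} (R ⧸ maximalIdeal R)))
      (ModuleCat.of R (QuotSMulTop y M)) i) := by
    intro i hi
    have hyreg' : IsSMulRegular (ModuleCat.of R M) y := hyreg
    have zero1 := AddCommGrpCat.isZero_of_iff_subsingleton.mpr (hext i (by omega))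
    have zero2 := AddCommGrpCat.isZero_of_iff_subsingleton.mpr (hext (i + 1) (by omega))
    exact AddCommGrpCat.subsingleton_of_isZero <| ShortComplex.Exact.isZero_of_both_zeros
      ((Ext.covariant_sequence_exact₃' _ hyreg'.smulShortComplex_shortExact) i (i + 1) rfl)
      (zero1.eq_zero_of_src _) (zero2.eq_zero_of_tgt _)
  exact ((ModuleCat.exists_isRegular_tfae (maximalIdeal R) n (ModuleCat.of R (QuotSMulTop y M))
    (hlt (QuotSMulTop y M))).out 1 3).mp hext'

/-- A finite module of depth at least the embedding dimension of a noetherian local ring is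
free. -/
theorem free_of_isRegular_of_spanFinrank_le :
    ∀ (n : ℕ) (R : Type) [CommRing R] [IsLocalRing R] [IsNoetherianRing R]
      (M : Type) [AddCommGroup M] [Module R M] [Module.Finite R M],
      (maximalIdeal R).spanFinrank ≤ n →
      ∀ rs : List R, rs.length = n → (∀ r ∈ rs, r ∈ maximalIdeal R) → IsRegular M rs →
        Module.Free R M := by
  intro n
  induction n with
  | zero =>
    intro R _ _ _ M _ _ _ hn rs _ _ _
    have hbot : maximalIdeal R = ⊥ := by
      have hfg := (maximalIdeal R).fg_of_isNoetherianRing
      have h0 : (maximalIdeal R).generators = ∅ := by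
        rw [← Set.ncard_eq_zero (Submodule.FG.finite_generators hfg),
          Submodule.FG.generators_ncard hfg]
        exact Nat.le_zero.mp hn
      rw [← (maximalIdeal R).span_generators, h0, Submodule.span_empty]
    let := (IsLocalRing.isField_iff_maximalIdeal_eq.mpr hbot).toField
    exact Module.Free.of_divisionRing R M
  | succ n ih =>
    intro R _ _ _ M _ _ _ hn rs hlen hmem hreg
    classical
    have : Nontrivial M := hreg.nontrivial
    obtain ⟨z, rest, rfl⟩ : ∃ z rest, rs = z :: rest := by
      cases rs with
      | nil => simp at hlen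
      | cons z rest => exact ⟨z, rest, rfl⟩
    have hzreg : IsSMulRegular M z := ((isRegular_cons_iff M z rest).mp hreg).1
    have hzm : z ∈ maximalIdeal R := hmem z List.mem_cons_self
    -- induct modulo a regular element outside the square of the maximal ideal
    obtain ⟨y, hym, hy2, hyreg⟩ := exists_isSMulRegular_notMem_sq hzm hzreg
    have : Nontrivial (QuotSMulTop y M) := nontrivial_quotSMulTop_of_mem_maximalIdeal M hym
    obtain ⟨ts, htlen, htmem, htreg⟩ :=
      exists_isRegular_quotSMulTop ⟨z :: rest, hlen, hmem, hreg⟩ hym hyreg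
    have : Nontrivial (R ⧸ Ideal.span {y}) := Ideal.Quotient.nontrivial_iff.mpr (fun htop =>
      (maximalIdeal.isMaximal R).ne_top
        (top_le_iff.mp (htop ▸ (Ideal.span_singleton_le_iff_mem _).mpr hym)))
    have : IsLocalRing (R ⧸ Ideal.span {y}) :=
      IsLocalRing.of_surjective' (Ideal.Quotient.mk _) Ideal.Quotient.mk_surjective
    have : Module.Finite (R ⧸ Ideal.span {y}) (QuotSMulTop y M) :=
      Module.Finite.of_restrictScalars_finite R _ _
    have hreg' : IsRegular (QuotSMulTop y M) (ts.map (Ideal.Quotient.mk (Ideal.span {y}))) := by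
      refine ((AddEquiv.refl (QuotSMulTop y M)).isRegular_congr ?_).mp
        (htreg : IsRegular (QuotSMulTop y M) ts)
      exact List.forall₂_map_right_iff.mpr (List.forall₂_same.mpr fun r _ x =>
        (algebraMap_smul (R ⧸ Ideal.span {y}) r x).symm)
    have : IsNoetherianRing (R ⧸ Ideal.span {y}) :=
      isNoetherianRing_of_surjective R _ (Ideal.Quotient.mk _) Ideal.Quotient.mk_surjective
    have : IsLocalHom (Ideal.Quotient.mk (Ideal.span {y})) :=
      IsLocalHom.of_surjective _ Ideal.Quotient.mk_surjective
    have hfree : Module.Free (R ⧸ Ideal.span {y}) (QuotSMulTop y M) :=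
      ih (R ⧸ Ideal.span {y}) (QuotSMulTop y M) (spanFinrank_maximalIdeal_quotient_le hym hy2 hn)
        _ (by simp [htlen])
        (by
          intro r hr
          obtain ⟨t, ht, rfl⟩ := List.mem_map.mp hr
          intro hu
          exact htmem t ht ((isUnit_map_iff (Ideal.Quotient.mk (Ideal.span {y})) t).mp hu))
        hreg'
    have : Module.FinitePresentation R M := Module.finitePresentation_of_finite R M
    exact (Module.free_quotSMulTop_iff_free R M (maximalIdeal_le_jacobson _ hym) hyreg).mp hfree

end Fermat.GR
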