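import Fermat.Prelude.Def_Algebra_PatchingDatum
import Fermat.Agent.GR.CommAlg.RegularFree
import Fermat.Agent.GR.CommAlg.PowerSeriesRegular

/-!
# The descent step of patching

The lifted module of a patching level with trivial ideal is free over the power series ring, as
the parameters form a regular sequence (`GR/CommAlg/RegularFree`). Reading coordinates modulo the
kernel of the projection, the patched module is free and faithful, with the stated kernel.
-/

set_option autoImplicit false
open Algebra RingTheory.Sequence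

namespace Fermat.GR.PatchingStep

variable {𝒪 : Type} [CommRing 𝒪] {r : ℕ} {R : Type} [CommRing R] [Algebra 𝒪 R]
  {M : Type} [AddCommGroup M] [Module R M] (L : PatchingLevel 𝒪 r R M ⊥)

/-- The ideal of the images of the variables. -/
noncomputable abbrev varIdeal : Ideal (MvPowerSeries (Fin r) 𝒪) :=
  Ideal.span (Set.range fun i : Fin r => L.φ (MvPowerSeries.X i))

/-- The lifted module has the coordinates of a free module, semilinearly along `φ`. -/
lemma exists_coordEquiv : ∃ e : (Fin L.d → MvPowerSeries (Fin r) 𝒪) ≃+ L.N,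
    ∀ g c, e (g • c) = L.φ g • e c := by
  let e₀ : (Fin L.d → MvPowerSeries (Fin r) 𝒪) →+ L.N :=
    { toFun := fun c => ∑ i, L.φ (c i) • L.b i
      map_zero' := by simp
      map_add' := fun c c' => by simp [add_smul, Finset.sum_add_distrib] }
  refine ⟨AddEquiv.ofBijective e₀ ⟨(injective_iff_map_eq_zero e₀).mpr fun c hc =>
    funext fun i => (Submodule.mem_bot _).mp ((L.b_rel c).mp hc i),
    fun x => by obtain ⟨c, hc⟩ := L.b_span x; exact ⟨c, hc.symm⟩⟩, fun g c => ?_⟩
  change ∑ i, L.φ (g * c i) • L.b i = L.φ g • ∑ i, L.φ (c i) • L.b i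
  simp [Finset.smul_sum, map_mul, mul_smul]

/-- If `M ≠ 0`, the images of the variables are not units. -/
lemma φ_X_mem_maximalIdeal [IsLocalRing 𝒪] [Nontrivial M] (i : Fin r) :
    L.φ (MvPowerSeries.X i) ∈ IsLocalRing.maximalIdeal (MvPowerSeries (Fin r) 𝒪) := by
  intro hu
  have htop : varIdeal L = ⊤ :=
    Ideal.eq_top_of_isUnit_mem _ (Ideal.subset_span (Set.mem_range_self i)) hu
  apply not_subsingleton M
  refine subsingleton_of_forall_eq 0 fun m => ?_
  obtain ⟨x, rfl⟩ := L.π_surjective m
  exact (L.ker_π x).mpr (by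
    change x ∈ varIdeal L • ⊤
    rw [htop, Submodule.top_smul]; trivial)

/-- The lifted module is finite over the power series ring. -/
lemma finite_lift : Module.Finite (MvPowerSeries (Fin r) 𝒪) L.N :=
  ⟨Submodule.fg_def.mpr ⟨Set.range L.b, Set.finite_range _, eq_top_iff.mpr fun x _ => by
    obtain ⟨c, rfl⟩ := L.b_span x
    exact Submodule.sum_mem _ fun i _ =>
      Submodule.smul_mem _ _ (Submodule.subset_span ⟨i, rfl⟩)⟩⟩

variable [IsDomain 𝒪] [IsDiscreteValuationRing 𝒪] [Nontrivial M]

/-- The lifted module is free over the power series ring. -/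
lemma free_lift : Module.Free (MvPowerSeries (Fin r) 𝒪) L.N := by
  obtain ⟨ϖ, hϖ⟩ := IsDiscreteValuationRing.exists_irreducible 𝒪
  obtain ⟨e, he⟩ := exists_coordEquiv L
  have := finite_lift L
  have : Nontrivial L.N := L.π_surjective.nontrivial
  have hmem : ∀ f ∈ (regularParams r ϖ).map L.φ,
      f ∈ IsLocalRing.maximalIdeal (MvPowerSeries (Fin r) 𝒪) := by
    intro f hf
    obtain ⟨g, hg, rfl⟩ := List.mem_map.mp hf
    rcases List.mem_append.mp hg with h | h
    · obtain ⟨i, -, rfl⟩ := List.mem_map.mp h
      exact φ_X_mem_maximalIdeal L i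
    · have hC : algebraMap 𝒪 (MvPowerSeries (Fin r) 𝒪) ϖ = MvPowerSeries.C ϖ := by
        simp [MvPowerSeries.algebraMap_apply]
      rw [List.mem_singleton.mp h, ← hC, AlgHom.commutes, hC]
      exact regularParams_mem_maximalIdeal hϖ.not_isUnit _
        (List.mem_append.mpr (Or.inr (List.mem_singleton_self _)))
  -- the parameters form a regular sequence on coordinates, hence on the lifted module
  have hweak : IsWeaklyRegular (Fin L.d → MvPowerSeries (Fin r) 𝒪) (regularParams r ϖ) :=
    ((TensorProduct.rid (MvPowerSeries (Fin r) 𝒪)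
      (Fin L.d → MvPowerSeries (Fin r) 𝒪)).isWeaklyRegular_congr _).mp
      (isWeaklyRegular_regularParams hϖ.ne_zero).isWeaklyRegular_lTensor
  have hregN : IsRegular L.N ((regularParams r ϖ).map L.φ) := by
    refine IsRegular.of_isWeaklyRegular_of_mem_maximalIdeal L.N hmem ?_
    refine (e.isWeaklyRegular_congr ?_).mp hweak
    exact List.forall₂_map_right_iff.mpr (List.forall₂_same.mpr fun g _ c => he g c)
  exact free_of_isRegular_of_spanFinrank_le (r + 1) _ _
    spanFinrank_maximalIdeal_mvPowerSeries_le _ (by simp [regularParams]) hmem hregN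

omit [IsDomain 𝒪] [IsDiscreteValuationRing 𝒪] [Nontrivial M] in
/-- An element killed by the projection has coordinates in `varIdeal`. -/
lemma repr_mem_varIdeal {ι : Type*} (β : Module.Basis ι (MvPowerSeries (Fin r) 𝒪) L.N)
    {x : L.N} (hx : L.π x = 0) (j : ι) : β.repr x j ∈ varIdeal L := by
  refine Submodule.smul_induction_on ((L.ker_π x).mp hx) ?_ ?_
  · intro a ha n _
    simpa using (varIdeal L).mul_mem_right (β.repr n j) ha
  · intro u v hu hv
    simpa using (varIdeal L).add_mem hu hv

/-- A series killing the patched module lies in `varIdeal`. -/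
lemma mem_varIdeal_of_kills {f : MvPowerSeries (Fin r) 𝒪}
    (hf : ∀ x : L.N, L.ψ f • L.π x = 0) : f ∈ varIdeal L := by
  have := free_lift L
  have : Nontrivial L.N := L.π_surjective.nontrivial
  set β := Module.Free.chooseBasis (MvPowerSeries (Fin r) 𝒪) L.N
  obtain ⟨j⟩ := β.index_nonempty
  simpa using repr_mem_varIdeal L β (x := f • β j) (by rw [L.π_smul]; exact hf _) j

/-- The kernel of `ψ` is generated by the images of the variables. -/
theorem ker_eq_varIdeal : RingHom.ker L.ψ = varIdeal L := by
  refine le_antisymm (fun f hf => mem_varIdeal_of_kills L fun x => ?_) ?_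
  · rw [RingHom.mem_ker.mp hf, zero_smul]
  · rw [Ideal.span_le]
    rintro _ ⟨i, rfl⟩
    exact L.ψ_φ_X i

include L in
/-- The patched module is free. -/
theorem free : Module.Free R M := by
  classical
  have := free_lift L
  have := finite_lift L
  set β := Module.Free.chooseBasis (MvPowerSeries (Fin r) 𝒪) L.N
  refine Module.Free.of_basis (Module.Basis.mk (v := fun j => L.π (β j)) ?_ ?_)
  · rw [linearIndependent_iff']
    intro s g hg i hi
    choose f hf using fun j => L.ψ_surjective (g j)
    have h0 : L.π (∑ j ∈ s, f j • β j) = 0 := by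
      rw [map_sum, ← hg]
      exact Finset.sum_congr rfl fun j _ => by rw [L.π_smul, hf]
    have := repr_mem_varIdeal L β h0 i
    rw [map_sum, Finsupp.finsetSum_apply, Finset.sum_eq_single i] at this
    · rw [← hf i, ← RingHom.mem_ker, ker_eq_varIdeal]
      simpa using this
    · intro b _ hb
      simp [hb]
    · exact fun h => absurd hi h
  · intro m _
    obtain ⟨x, rfl⟩ := L.π_surjective m
    rw [← β.sum_repr x, map_sum]
    refine Submodule.sum_mem _ fun j _ => ?_
    rw [L.π_smul]
    exact Submodule.smul_mem _ _ (Submodule.subset_span ⟨j, rfl⟩)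

include L in
/-- The patched module is faithful. -/
theorem annihilator_eq_bot : Module.annihilator R M = ⊥ := by
  rw [eq_bot_iff]
  intro a ha
  obtain ⟨f, rfl⟩ := L.ψ_surjective a
  rw [Submodule.mem_bot, ← RingHom.mem_ker, ker_eq_varIdeal]
  exact mem_varIdeal_of_kills L fun x => Module.mem_annihilator.mp ha _

end Fermat.GR.PatchingStep
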